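import Mathlib

/-!
# Gluing morphisms and functions along two open immersions
-/

set_option autoImplicit false

universe u

open CategoryTheory CategoryTheory.Limits AlgebraicGeometry

namespace Fermat.Agent.Jac

variable {P X0 X1 X : Scheme.{u}} {i0 : P ⟶ X0} {i1 : P ⟶ X1} {w0 : X0 ⟶ X} {w1 : X1 ⟶ X}

/-- Two schemes over `X`, as a family indexed by `Bool`. -/
def pairFam (X0 X1 : Scheme.{u}) : Bool → Scheme.{u}
  | false => X0
  | true => X1

/-- The two maps, as a family indexed by `Bool`. -/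
def pairMap {Y : Scheme.{u}} (w0 : X0 ⟶ Y) (w1 : X1 ⟶ Y) : ∀ b, pairFam X0 X1 b ⟶ Y
  | false => w0
  | true => w1

/-- Two open immersions covering a scheme, as an open cover. -/
noncomputable def twoCover (w0 : X0 ⟶ X) (w1 : X1 ⟶ X) [IsOpenImmersion w0] [IsOpenImmersion w1]
    (hr : Set.range w0.base ∪ Set.range w1.base = Set.univ) : X.OpenCover :=
  Scheme.Cover.mkOfCovers Bool (pairFam X0 X1) (pairMap w0 w1)
    (fun x => by
      rcases (Set.eq_univ_iff_forall.mp hr x) with ⟨y, hy⟩ | ⟨y, hy⟩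
      · exact ⟨false, y, hy⟩
      · exact ⟨true, y, hy⟩)
    (fun b => by
      cases b
      · exact (inferInstanceAs (IsOpenImmersion w0))
      · exact (inferInstanceAs (IsOpenImmersion w1)))

theorem hom_ext_two [IsOpenImmersion w0] [IsOpenImmersion w1]
    (hr : Set.range w0.base ∪ Set.range w1.base = Set.univ) {Y : Scheme.{u}} {f g : X ⟶ Y}
    (h0 : w0 ≫ f = w0 ≫ g) (h1 : w1 ≫ f = w1 ≫ g) : f = g := by
  refine Scheme.Cover.hom_ext (twoCover w0 w1 hr) f g fun b => ?_
  cases b
  · exact h0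
  · exact h1

/-- Morphisms on two opens which agree on the intersection glue. -/
theorem exists_glue_two [IsOpenImmersion w0] [IsOpenImmersion w1]
    (hr : Set.range w0.base ∪ Set.range w1.base = Set.univ) (hP : IsPullback i0 i1 w0 w1)
    {Y : Scheme.{u}} (g0 : X0 ⟶ Y) (g1 : X1 ⟶ Y) (h : i0 ≫ g0 = i1 ≫ g1) :
    ∃ g : X ⟶ Y, w0 ≫ g = g0 ∧ w1 ≫ g = g1 := by
  have h01 : pullback.fst w0 w1 ≫ g0 = pullback.snd w0 w1 ≫ g1 := by
    rw [← hP.isoPullback_inv_fst, ← hP.isoPullback_inv_snd, Category.assoc, Category.assoc, h]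
  have h10 : pullback.fst w1 w0 ≫ g1 = pullback.snd w1 w0 ≫ g0 := by
    rw [← hP.flip.isoPullback_inv_fst, ← hP.flip.isoPullback_inv_snd, Category.assoc,
      Category.assoc, h]
  have hf : ∀ b b', pullback.fst ((twoCover w0 w1 hr).f b) ((twoCover w0 w1 hr).f b') ≫
      pairMap g0 g1 b = pullback.snd _ _ ≫ pairMap g0 g1 b' := by
    intro b b'
    cases b <;> cases b'
    · exact congrArg (· ≫ g0) ((cancel_mono w0).1 (pullback.condition (f := w0) (g := w0)))
    · exact h01
    · exact h10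
    · exact congrArg (· ≫ g1) ((cancel_mono w1).1 (pullback.condition (f := w1) (g := w1)))
  exact ⟨(twoCover w0 w1 hr).glueMorphisms (pairMap g0 g1) hf,
    (twoCover w0 w1 hr).ι_glueMorphisms (pairMap g0 g1) hf false,
    (twoCover w0 w1 hr).ι_glueMorphisms (pairMap g0 g1) hf true⟩

/-- The affine line over the integers. -/
noncomputable abbrev lineRing : CommRingCat.{u} := CommRingCat.of (Polynomial (ULift.{u} ℤ))

/-- The function attached to a map to the affine line. -/
noncomputable def secOf {Y : Scheme.{u}} (g : Y ⟶ Spec lineRing) : Γ(Y, ⊤) :=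
  g.appTop ((Scheme.ΓSpecIso lineRing).inv Polynomial.X)

theorem secOf_comp {Y Z : Scheme.{u}} (f : Y ⟶ Z) (g : Z ⟶ Spec lineRing) :
    secOf (f ≫ g) = f.appTop (secOf g) := by
  rfl

theorem ulift_int_hom_subsingleton {S : Type*} [CommRing S] (f g : ULift.{u} ℤ →+* S) : f = g :=
  RingHom.ext fun x => by
    have h := RingHom.congr_fun (RingHom.ext_int (f.comp ULift.ringEquiv.symm.toRingHom)
      (g.comp ULift.ringEquiv.symm.toRingHom)) x.down
    exact h

theorem secOf_injective {Y : Scheme.{u}} :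
    Function.Injective (secOf : (Y ⟶ Spec lineRing) → Γ(Y, ⊤)) := by
  intro g g' h
  apply ext_of_isAffine
  have he : (Scheme.ΓSpecIso lineRing).inv ≫ g.appTop =
      (Scheme.ΓSpecIso lineRing).inv ≫ g'.appTop := by
    apply CommRingCat.hom_ext
    exact Polynomial.ringHom_ext' (ulift_int_hom_subsingleton _ _) h
  exact (cancel_epi _).1 he

theorem secOf_surjective {Y : Scheme.{u}} :
    Function.Surjective (secOf : (Y ⟶ Spec lineRing) → Γ(Y, ⊤)) := by
  intro x
  let h : lineRing ⟶ Γ(Y, ⊤) := CommRingCat.ofHom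
    (Polynomial.eval₂RingHom ((Int.castRingHom Γ(Y, ⊤)).comp ULift.ringEquiv.toRingHom) x)
  refine ⟨Y.toSpecΓ ≫ Spec.map h, ?_⟩
  have he : (Scheme.ΓSpecIso lineRing).inv ≫ (Y.toSpecΓ ≫ Spec.map h).appTop = h := by
    rw [Scheme.Hom.comp_appTop, Scheme.toSpecΓ_appTop, ← Scheme.ΓSpecIso_inv_naturality_assoc,
      Iso.inv_hom_id, Category.comp_id]
  refine (congrArg (fun e => (ConcreteCategory.hom e) Polynomial.X) he).trans ?_
  exact Polynomial.eval₂_X _ _

/-- Functions which agree on both opens of a cover are equal. -/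
theorem sections_ext_two [IsOpenImmersion w0] [IsOpenImmersion w1]
    (hr : Set.range w0.base ∪ Set.range w1.base = Set.univ) {x y : Γ(X, ⊤)}
    (h0 : w0.appTop x = w0.appTop y) (h1 : w1.appTop x = w1.appTop y) : x = y := by
  obtain ⟨f, rfl⟩ := secOf_surjective x
  obtain ⟨g, rfl⟩ := secOf_surjective y
  rw [← secOf_comp, ← secOf_comp] at h0 h1
  rw [hom_ext_two hr (secOf_injective h0) (secOf_injective h1)]

end Fermat.Agent.Jac
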