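import Fermat.Agent.Jac.Cut.Sheaf
import Fermat.Agent.Jac.Cut.Glue

/-!
# The map from the curve to a representing scheme

`exists_abel_map_of_sheaf` maps the curve to a representing scheme by rigidifying the classes
of points.
-/

set_option autoImplicit false

universe u

open CategoryTheory CategoryTheory.Limits AlgebraicGeometry AlgebraicGeometry.RelPicard
  NeronModelInfra
open scoped TensorProduct

namespace Fermat.Agent.Jac

variable {k : Type u} [Field k] {m : CurveModel k}

/-- The image of a chart point under a map of algebras. -/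
def ChartPoint.push {A A' : Type u} [CommRing A] [Algebra k A] [CommRing A'] [Algebra k A']
    (φ : A →ₐ[k] A') : ChartPoint m A → ChartPoint m A' :=
  Sum.map φ.comp φ.comp

theorem Cl.map_point {A A' : Type u} [CommRing A] [Algebra k A] [CommRing A'] [Algebra k A']
    (φ : A →ₐ[k] A') (p : ChartPoint m A) :
    Cl.map φ (Cl.point p) = Cl.point (ChartPoint.push φ p) := by
  rcases p with p | p
  · exact Cl.map_point0 φ p
  · exact Cl.map_point1 φ p

theorem ChartPoint.push_epsPoint {A A' : Type u} [CommRing A] [Algebra k A] [CommRing A']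
    [Algebra k A'] (φ : A →ₐ[k] A') :
    ChartPoint.push φ (epsPoint m A) = epsPoint m A' :=
  congrArg Sum.inr (AlgHom.ext fun _ => φ.commutes _)

/-- The class of a point minus the marked point, before rigidification. -/
noncomputable def abelCls {A : Type u} [CommRing A] [Algebra k A] (p : ChartPoint m A) : Cl m A :=
  (Cl.point p)⁻¹ * Cl.point (epsPoint m A)

theorem map_abelCls {A A' : Type u} [CommRing A] [Algebra k A] [CommRing A'] [Algebra k A']
    (φ : A →ₐ[k] A') (p : ChartPoint m A) :
    Cl.map φ (abelCls p) = abelCls (ChartPoint.push φ p) := by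
  rw [abelCls, abelCls, map_mul, map_inv, Cl.map_point, Cl.map_point, ChartPoint.push_epsPoint]

theorem degZero_abelCls {A : Type u} [CommRing A] [Algebra k A] (p : ChartPoint m A) :
    (abelCls p).DegZero := by
  intro K _ _ _ φ
  have hpt : ∀ q : ChartPoint m K, (Cl.point q).euler = (1 : Cl m K).euler - 1 := fun q => by
    have h := Cl.euler_mul_point (1 : Cl m K) q
    rwa [one_mul] at h
  have hinv : ∀ q : ChartPoint m K, ((Cl.point q)⁻¹).euler = (1 : Cl m K).euler + 1 := fun q => by
    have h := Cl.euler_mul_point (Cl.point q)⁻¹ q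
    rw [inv_mul_cancel] at h
    linarith
  rw [map_abelCls, abelCls, Cl.euler_mul, hinv, hpt]
  ring

/-- `y` is the rigidified class of degree zero attached to `z`. -/
def IsRigidification {A : Type u} [CommRing A] [Algebra k A] (z : Cl m A) (y : picZero m A) :
    Prop :=
  ∀ (B : Type u) [CommRing B] [Algebra k B] (φ : A →ₐ[k] B),
    (Cl.map φ z).RigTriv → Cl.map φ y.1 = Cl.map φ z

theorem IsRigidification.map {A A' : Type u} [CommRing A] [Algebra k A] [CommRing A']
    [Algebra k A'] {z : Cl m A} {y : picZero m A} (h : IsRigidification z y) (ψ : A →ₐ[k] A') :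
    IsRigidification (Cl.map ψ z) ((picZeroFun m).map ψ y) := by
  intro B _ _ φ hφ
  have e : ((picZeroFun m).map ψ y).1 = Cl.map ψ y.1 := rfl
  rw [e, Cl.map_map, Cl.map_map]
  rw [Cl.map_map] at hφ
  exact h B _ hφ

theorem IsRigidification.unique (hF : (picZeroFun m).IsSheaf) {A : Type u} [CommRing A]
    [Algebra k A] {z : Cl m A} {y y' : picZero m A} (h : IsRigidification z y)
    (h' : IsRigidification z y') : y = y' := by
  obtain ⟨s, hs, hr⟩ := Cl.exists_cover_rigTriv z
  refine hF.ext A s hs y y' fun f hf => Subtype.ext ?_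
  exact (h _ _ (hr f hf)).trans (h' _ _ (hr f hf)).symm

/-- Every class of degree zero has a rigidification. -/
theorem exists_isRigidification (hF : (picZeroFun m).IsSheaf) {A : Type u} [CommRing A]
    [Algebra k A] {z : Cl m A} (hz : z.DegZero) :
    ∃ y : picZero m A, IsRigidification z y := by
  classical
  obtain ⟨s, hs, hr⟩ := Cl.exists_cover_rigTriv z
  let r : ∀ f : s, picZero m (Localization.Away (f : A)) := fun f =>
    ⟨Cl.map (IsScalarTower.toAlgHom k A (Localization.Away (f : A))) z, hr f f.2,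
      Cl.DegZero.map m _ hz⟩
  obtain ⟨y, hy⟩ := hF.glue A s hs r (fun f g B _ _ φ ψ e => Subtype.ext (by
    change Cl.map φ (Cl.map _ z) = Cl.map ψ (Cl.map _ z)
    rw [Cl.map_map, Cl.map_map, e]))
  refine ⟨y, fun B _ _ φ hφ => ?_⟩
  have key : (picZeroFun m).map φ y = ⟨Cl.map φ z, hφ, Cl.DegZero.map m φ hz⟩ := by
    refine hF.ext B (s.image φ) ?_ _ _ fun g hg => Subtype.ext ?_
    · have := congrArg (Ideal.map φ.toRingHom) hs
      rw [Ideal.map_span, Ideal.map_top] at this
      rw [Finset.coe_image]
      exact this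
    obtain ⟨f, hf, rfl⟩ := Finset.mem_image.mp hg
    obtain ⟨α, hα⟩ := exists_away_algHom φ f
    change Cl.map _ (Cl.map φ y.1) = Cl.map _ (Cl.map φ z)
    rw [Cl.map_map, Cl.map_map, ← hα, ← Cl.map_map, ← Cl.map_map]
    exact congrArg (Cl.map α) (congrArg Subtype.val (hy ⟨f, hf⟩))
  exact congrArg Subtype.val key

variable {C : Scheme.{u}} {c : C ⟶ Spec (CommRingCat.of k)}
  {ε : SchemeHomOver (𝟙 (Spec (CommRingCat.of k))) c}

/-- The point of the curve given by a chart point. -/
noncomputable def CurveModel.Geo.pointHom (G : m.Geo c ε) {A : Type u} [CommRing A] [Algebra k A] :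
    ChartPoint m A → SchemeHomOver (specTo k A) c
  | Sum.inl φ => ⟨(specMapOver φ).1 ≫ G.u0, by
      rw [Category.assoc, G.u0_over]; exact (specMapOver φ).2⟩
  | Sum.inr φ => ⟨(specMapOver φ).1 ≫ G.u1, by
      rw [Category.assoc, G.u1_over]; exact (specMapOver φ).2⟩

/-- **The Abel map**: a morphism from the curve to a representing scheme such that every geometric
class of degree zero is a product of `genus` many of its values. -/
theorem exists_abel_map_of_sheaf (G : m.Geo c ε) (hF : (picZeroFun m).IsSheaf)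
    (R : (picZeroFun m).RepScheme) :
    ∃ ψ : SchemeHomOver c R.toBase,
      ∀ (K : Type u) [Field K] [IsAlgClosed K] [Algebra k K] (v : (picZeroFun m).obj K),
        ∃ p : Fin m.genus → SchemeHomOver (specTo k K) c,
          v = ∏ i, R.pts K ⟨(p i).1 ≫ ψ.1, by rw [Category.assoc, ψ.2, (p i).2]⟩ := by
  obtain ⟨y0, hy0⟩ := exists_isRigidification hF
    (degZero_abelCls (m := m) (Sum.inl (AlgHom.id k m.B0) : ChartPoint m m.B0))
  obtain ⟨y1, hy1⟩ := exists_isRigidification hF
    (degZero_abelCls (m := m) (Sum.inr (AlgHom.id k m.B1) : ChartPoint m m.B1))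
  have h01 : (picZeroFun m).map m.i0 y0 = (picZeroFun m).map m.i1 y1 := by
    refine IsRigidification.unique hF (hy0.map m.i0) ?_
    have e : Cl.map m.i0 (abelCls (Sum.inl (AlgHom.id k m.B0) : ChartPoint m m.B0)) =
        Cl.map m.i1 (abelCls (Sum.inr (AlgHom.id k m.B1) : ChartPoint m m.B1)) := by
      rw [map_abelCls, map_abelCls, abelCls, abelCls]
      congr 2
      exact Cl.point0_eq_point1 (AlgHom.id k m.B01)
    rw [e]
    exact hy1.map m.i1
  let g0 := (R.pts m.B0).symm y0
  let g1 := (R.pts m.B1).symm y1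
  have hg : compOver (specMapOver m.i0) g0 = compOver (specMapOver m.i1) g1 := by
    apply (R.pts m.B01).injective
    refine (R.pts_natural _ _ m.i0 g0).trans
      (Eq.trans ?_ (R.pts_natural _ _ m.i1 g1).symm)
    rw [Equiv.apply_symm_apply, Equiv.apply_symm_apply]
    exact h01
  have := G.isOpenImmersion0
  have := G.isOpenImmersion1
  obtain ⟨g, hgu0, hgu1⟩ := exists_glue_two G.range_union G.isPullback g0.1 g1.1
    (congrArg Subtype.val hg)
  have hover : g ≫ R.toBase = c := by
    refine hom_ext_two G.range_union ?_ ?_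
    · rw [← Category.assoc, hgu0, g0.2, G.u0_over]; rfl
    · rw [← Category.assoc, hgu1, g1.2, G.u1_over]; rfl
  refine ⟨⟨g, hover⟩, fun K _ _ _ v => ?_⟩
  have hdeg : v.1.euler = (1 : Cl m K).euler := by
    have h := v.2.2 K (AlgHom.id k K)
    rwa [Cl.map_id] at h
  obtain ⟨q, hq⟩ := Cl.exists_points_of_euler v.1 hdeg
  have hpt : ∀ (p : ChartPoint m K) (pr : ((G.pointHom p).1 ≫ g) ≫ R.toBase = specTo k K),
      (R.pts K ⟨(G.pointHom p).1 ≫ g, pr⟩).1 = abelCls p := by
    rintro (φ | φ) pr
    · have e : (⟨(G.pointHom (Sum.inl φ)).1 ≫ g, pr⟩ : SchemeHomOver (specTo k K) R.toBase) =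
          ⟨(specMapOver φ).1 ≫ g0.1, by rw [Category.assoc, g0.2]; exact (specMapOver φ).2⟩ :=
        Subtype.ext (by
          change ((specMapOver φ).1 ≫ G.u0) ≫ g = _
          rw [Category.assoc, hgu0])
      rw [e, R.pts_natural m.B0 K φ g0, Equiv.apply_symm_apply]
      refine (hy0 K φ (Cl.rigTriv_of_field _)).trans ?_
      rw [map_abelCls]
      rfl
    · have e : (⟨(G.pointHom (Sum.inr φ)).1 ≫ g, pr⟩ : SchemeHomOver (specTo k K) R.toBase) =
          ⟨(specMapOver φ).1 ≫ g1.1, by rw [Category.assoc, g1.2]; exact (specMapOver φ).2⟩ :=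
        Subtype.ext (by
          change ((specMapOver φ).1 ≫ G.u1) ≫ g = _
          rw [Category.assoc, hgu1])
      rw [e, R.pts_natural m.B1 K φ g1, Equiv.apply_symm_apply]
      refine (hy1 K φ (Cl.rigTriv_of_field _)).trans ?_
      rw [map_abelCls]
      rfl
  refine ⟨fun i => G.pointHom (q i), Subtype.ext ?_⟩
  rw [Subgroup.val_finsetProd, hq]
  simp only [hpt, abelCls]
  rw [Finset.prod_mul_distrib, Finset.prod_const, Finset.card_univ, Fintype.card_fin]

end Fermat.Agent.Jac
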