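import Fermat.Agent.Jac.Cut.Bundle

/-!
# The Euler characteristic is constant in connected families

`euler_clsAt_eq` compares two points of a connected family.
-/

set_option autoImplicit false

universe u

open CategoryTheory CategoryTheory.Limits AlgebraicGeometry AlgebraicGeometry.RelPicard
  NeronModelInfra
open scoped TensorProduct

namespace Fermat.Agent.Jac

variable {k : Type u} [Field k] {m : CurveModel k} {C : Scheme.{u}}
  {c : C ⟶ Spec (CommRingCat.of k)}
  {ε : SchemeHomOver (𝟙 (Spec (CommRingCat.of k))) c} {G : m.Geo c ε}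

/-- The class of the restriction of a family to an affine test scheme. -/
noncomputable def clsAt (d : G.Dictionary) {T : Scheme.{u}} {τ : T ⟶ Spec (CommRingCat.of k)}
    {M : (pullback c τ).Modules} (hM : Scheme.Modules.IsInvertible M) (A : Type u) [CommRing A]
    [Algebra k A] (g : SchemeHomOver (specTo k A) τ) : Cl m A :=
  d.cls A ((Scheme.Modules.pullback (baseChangeSnd c g)).obj M) (hM.pullback _)

theorem clsAt_comp (d : G.Dictionary) {T : Scheme.{u}} {τ : T ⟶ Spec (CommRingCat.of k)}
    {M : (pullback c τ).Modules} (hM : Scheme.Modules.IsInvertible M) {A A' : Type u} [CommRing A]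
    [Algebra k A] [CommRing A'] [Algebra k A'] (φ : A →ₐ[k] A')
    (g : SchemeHomOver (specTo k A) τ) (g' : SchemeHomOver (specTo k A') τ)
    (e : (specMapOver φ).1 ≫ g.1 = g'.1) :
    clsAt d hM A' g' = Cl.map φ (clsAt d hM A g) := by
  obtain rfl : g' = compOver (specMapOver φ) g := Subtype.ext e.symm
  refine ((d.cls_eq_iff A' _ _ _ _).2 ?_).trans (d.cls_pullback A A' φ _ (hM.pullback _))
  obtain ⟨i⟩ := modules_pullback_comp _ _ _ (baseChangeSnd_comp c g (specMapOver φ)) M
  exact ⟨i.symm⟩

/-- The closed point of a field lies in a basic open when the function is nonzero there. -/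
theorem specMap_closedPoint_mem_iff {A K : Type u} [CommRing A] [Algebra k A] [Field K]
    [Algebra k K] (φ : A →ₐ[k] K) (f : A) :
    (specMapOver φ).1 (IsLocalRing.closedPoint K) ∈
      (PrimeSpectrum.basicOpen f : (Spec (CommRingCat.of A)).Opens) ↔ φ f ≠ 0 := by
  change φ f ∉ (IsLocalRing.closedPoint K).asIdeal ↔ _
  rw [show (IsLocalRing.closedPoint K).asIdeal = ⊥ from IsLocalRing.maximalIdeal_eq_bot,
    Ideal.mem_bot]

/-- The structure on a residue field given by a map to the base. -/
theorem exists_algebra_field {X : Scheme.{u}} {x : X}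
    (r : Spec (X.residueField x) ⟶ Spec (CommRingCat.of k)) :
    ∃ a : Algebra k (IsLocalRing.ResidueField (X.presheaf.stalk x)),
      letI := a; specTo k (IsLocalRing.ResidueField (X.presheaf.stalk x)) = r := by
  obtain ⟨f, hf⟩ := Spec.map_surjective r
  exact ⟨f.hom.toAlgebra, hf⟩

/-- The Euler characteristics at two points of a connected family agree. -/
theorem euler_clsAt_eq (d : G.Dictionary) {T : Scheme.{u}} [PreconnectedSpace T]
    {τ : T ⟶ Spec (CommRingCat.of k)} {M : (pullback c τ).Modules}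
    (hM : Scheme.Modules.IsInvertible M) (K : Type u) [Field K] [Algebra k K]
    (g0 g1 : SchemeHomOver (specTo k K) τ) :
    (clsAt d hM K g0).euler = (clsAt d hM K g1).euler := by
  choose alg halg using fun x : T =>
    exists_algebra_field (T.fromSpecResidueField x ≫ τ)
  let pt : ∀ x : T, letI := alg x;
      SchemeHomOver (specTo k (IsLocalRing.ResidueField (T.presheaf.stalk x))) τ :=
    fun x => ⟨T.fromSpecResidueField x, (halg x).symm⟩
  let e : T → ℤ := fun x => letI := alg x;
    (clsAt d hM (IsLocalRing.ResidueField (T.presheaf.stalk x)) (pt x)).euler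
  have he : ∀ (L : Type u) [Field L] [Algebra k L] (g : SchemeHomOver (specTo k L) τ),
      (clsAt d hM L g).euler = e (g.1 (IsLocalRing.closedPoint L)) := by
    intro L _ _ g
    let _ := alg (g.1 (IsLocalRing.closedPoint L))
    have hdesc := Scheme.descResidueField_stalkClosedPointTo_fromSpecResidueField L T g.1
    obtain ⟨φ, hφ⟩ := exists_specMapOver_eq (k := k)
      (A := IsLocalRing.ResidueField (T.presheaf.stalk (g.1 (IsLocalRing.closedPoint L)))) (A' := L)
      ⟨Spec.map (Scheme.descResidueField (Scheme.stalkClosedPointTo g.1)), by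
        rw [halg]
        exact ((reassoc_of% hdesc) τ).trans g.2⟩
    rw [clsAt_comp d hM φ (pt (g.1 (IsLocalRing.closedPoint L))) g (by rw [hφ]; exact hdesc),
      Cl.euler_map_field]
  rw [he K g0, he K g1]
  refine IsLocallyConstant.apply_eq_of_preconnectedSpace ?_ _ _
  refine (IsLocallyConstant.iff_exists_open e).mpr fun x => ?_
  obtain ⟨U, hU, hxU, -⟩ := exists_isAffineOpen_mem_and_subset (x := x) (U := ⊤) trivial
  obtain ⟨B, _, _, a, eU, heU⟩ := exists_affine_chart τ U hU
  have key : ∀ u : U.toScheme, ∃ (L : Type u) (_ : Field L) (_ : Algebra k L) (φ : B →ₐ[k] L),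
      (Cl.map φ (clsAt d hM B a)).euler = e (U.ι u) ∧
        (specMapOver φ).1 (IsLocalRing.closedPoint L) = eU.1 u := by
    intro u
    obtain ⟨inst, hi⟩ := exists_algebra_field (k := k) (X := U.toScheme) (x := u)
      (U.toScheme.fromSpecResidueField u ≫ U.ι ≫ τ)
    obtain ⟨φ, hφ⟩ := exists_specMapOver_eq (k := k) (A := B)
      (A' := IsLocalRing.ResidueField (U.toScheme.presheaf.stalk u))
      (compOver ⟨U.toScheme.fromSpecResidueField u, hi.symm⟩ eU)
    let g : SchemeHomOver (specTo k (IsLocalRing.ResidueField (U.toScheme.presheaf.stalk u))) τ :=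
      ⟨U.toScheme.fromSpecResidueField u ≫ U.ι, by rw [Category.assoc]; exact hi.symm⟩
    refine ⟨IsLocalRing.ResidueField (U.toScheme.presheaf.stalk u), inferInstance, inst, φ, ?_, ?_⟩
    · rw [← clsAt_comp d hM φ a g (by
        rw [hφ]
        change (_ ≫ eU.1) ≫ a.1 = _ ≫ U.ι
        rw [Category.assoc, heU]), he]
      congr 1
      change U.ι (U.toScheme.fromSpecResidueField u _) = _
      rw [Scheme.fromSpecResidueField_apply]
    · rw [hφ]
      change eU.1 (U.toScheme.fromSpecResidueField u _) = _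
      rw [Scheme.fromSpecResidueField_apply]
  obtain ⟨K', _, _, φ, hφe, hφp⟩ := key ⟨x, hxU⟩
  obtain ⟨f, hf, hconst⟩ := Cl.exists_away_euler (clsAt d hM B a) K' φ
  let W : U.toScheme.Opens := eU.1 ⁻¹ᵁ (PrimeSpectrum.basicOpen f)
  refine ⟨U.ι '' (W : Set U.toScheme), U.ι.isOpenEmbedding.isOpenMap _ W.2,
    ⟨⟨x, hxU⟩, ?_, rfl⟩, ?_⟩
  · change eU.1 ⟨x, hxU⟩ ∈ (PrimeSpectrum.basicOpen f : (Spec (CommRingCat.of B)).Opens)
    rw [← hφp]
    exact (specMap_closedPoint_mem_iff φ f).mpr hf
  · rintro y ⟨u, hu, rfl⟩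
    obtain ⟨L, _, _, ψ, hψe, hψp⟩ := key u
    have hψf : ψ f ≠ 0 := by
      refine (specMap_closedPoint_mem_iff ψ f).mp ?_
      rw [hψp]
      exact hu
    rw [← hψe, hconst L ψ hψf, hφe]
    rfl

end Fermat.Agent.Jac
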