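import Fermat.Prelude.Def_AlgebraicGeometry_RelPicardAlgEquivZeroCut
import Fermat.Agent.Jac.Cut.Degree

/-!
# Degree zero and algebraic equivalence to zero on the fibres

`degZero_of_fibrewise` and `fibrewise_of_family` are the two directions.
-/

set_option autoImplicit false

universe u

open CategoryTheory CategoryTheory.Limits AlgebraicGeometry AlgebraicGeometry.RelPicard
  NeronModelInfra
open scoped TensorProduct

namespace Fermat.Agent.Jac

variable {k : Type u} [Field k] {m : CurveModel k} {C : Scheme.{u}}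
  {c : C ⟶ Spec (CommRingCat.of k)}
  {ε : SchemeHomOver (𝟙 (Spec (CommRingCat.of k))) c} {G : m.Geo c ε}

/-- Bundles algebraically equivalent to zero on the fibres have degree zero. -/
theorem degZero_of_fibrewise (d : G.Dictionary) (A : Type u) [CommRing A]
    [Algebra k A] (M : RigidifiedLineBundle c ε (specTo k A)) (h : FibrewiseAlgEquivZero M) :
    (d.cls A M.L M.isInvertible).DegZero := by
  intro K _ _ _ φ
  let s : Spec (CommRingCat.of K) ⟶ Spec (CommRingCat.of A) := (specMapOver φ).1
  obtain ⟨T', hh, _, _, N, hN, t0, t1, ⟨e0⟩, ⟨e1⟩⟩ := h K s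
  have : IrreducibleSpace T' := GeometricallyIrreducible.irreducibleSpace_of_subsingleton hh
  let a := fibreAt c (specTo k A) s
  let τ : T' ⟶ Spec (CommRingCat.of k) := hh ≫ specTo k K
  let jmap : pullback c τ ⟶ pullback a hh :=
    pullback.lift
      (pullback.lift
        (pullback.lift (pullback.fst c τ) (pullback.snd c τ ≫ hh ≫ s) (by
          rw [pullback.condition]
          simp only [τ, s, Category.assoc, (specMapOver φ).2]))
        (pullback.snd c τ ≫ hh) (by rw [pullback.lift_snd, Category.assoc]))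
      (pullback.snd c τ) (by simp only [a, fibreAt, pullback.lift_snd])
  let M' := (Scheme.Modules.pullback jmap).obj N
  have hM' : Scheme.Modules.IsInvertible M' := hN.pullback _
  let σ : pullback c (specTo k K) ⟶ pullback a (𝟙 (Spec (CommRingCat.of K))) :=
    pullback.lift
      (pullback.lift (baseChangeSnd c (specMapOver φ)) (pullback.snd c (specTo k K)) (by
        simp [pullback.lift_snd, baseChangeSnd, s]))
      (pullback.snd c (specTo k K)) (by simp [pullback.lift_snd, a, fibreAt])
  have key : ∀ t : SchemeHomOver (𝟙 (Spec (CommRingCat.of K))) hh,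
      ∃ t' : SchemeHomOver (specTo k K) τ,
        baseChangeSnd c t' ≫ jmap = σ ≫ baseChangeSnd a t := by
    intro t
    refine ⟨⟨t.1, by rw [← Category.assoc, t.2, Category.id_comp]⟩, ?_⟩
    have ht : t.1 ≫ hh = 𝟙 _ := t.2
    apply pullback.hom_ext
    · apply pullback.hom_ext
      · apply pullback.hom_ext
        · simp [pullback.lift_fst, jmap, σ, baseChangeSnd, a, fibreAt]
        · simp [pullback.lift_fst, pullback.lift_snd, pullback.lift_snd_assoc,
            jmap, σ, baseChangeSnd, a, fibreAt, s, reassoc_of% ht]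
      · simp [pullback.lift_fst, pullback.lift_snd, pullback.lift_snd_assoc,
          jmap, σ, baseChangeSnd, a, fibreAt, ht]
    · simp [pullback.lift_snd, pullback.lift_snd_assoc, jmap, σ, baseChangeSnd, a, fibreAt]
  obtain ⟨t0', h0⟩ := key t0
  obtain ⟨t1', h1⟩ := key t1
  have hcl0 : clsAt d hM' K t0' = 1 := by
    obtain ⟨i⟩ := modules_pullback_comp _ _ _ h0 N
    obtain ⟨j⟩ := modules_pullback_comp σ (baseChangeSnd a t0) _ rfl N
    refine ((d.cls_eq_iff K _ _ _ _).2 ⟨i ≪≫ j.symm ≪≫
      (Scheme.Modules.pullback σ).mapIso e0 ≪≫ Scheme.Modules.pullbackUnitIso σ⟩).trans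
      (d.cls_unit K)
  have hcl1 : clsAt d hM' K t1' = Cl.map φ (d.cls A M.L M.isInvertible) := by
    obtain ⟨i⟩ := modules_pullback_comp _ _ _ h1 N
    obtain ⟨j⟩ := modules_pullback_comp σ (baseChangeSnd a t1) _ rfl N
    obtain ⟨l⟩ := modules_pullback_comp σ (pullback.fst a (𝟙 _)) _ rfl
      ((Scheme.Modules.pullback (pullback.fst (pullback.snd c (specTo k A)) s)).obj M.L)
    obtain ⟨l'⟩ := modules_pullback_comp (σ ≫ pullback.fst a (𝟙 _))
      (pullback.fst (pullback.snd c (specTo k A)) s) (baseChangeSnd c (specMapOver φ))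
      (by simp [pullback.lift_fst, σ, a, fibreAt]) M.L
    refine ((d.cls_eq_iff K _ _ _ (M.isInvertible.pullback _)).2 ⟨i ≪≫ j.symm ≪≫
      (Scheme.Modules.pullback σ).mapIso e1 ≪≫ l ≪≫ l'⟩).trans
      (d.cls_pullback A K φ M.L M.isInvertible)
  rw [← hcl1, ← euler_clsAt_eq d hM' K t0' t1', hcl0]

/-- A bundle on a representing scheme, trivial at the identity, is algebraically equivalent to zero
on the fibres if a geometrically integral family maps onto the geometric points. -/
theorem fibrewise_of_family {F : AlgFun k} (R : F.RepScheme) (d : G.Dictionary)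
    (P : RigidifiedLineBundle c ε R.toBase)
    (hone : ∀ (K : Type u) [Field K] [IsAlgClosed K] [Algebra k K],
      d.cls K (P.pullbackAlong ((R.pts K).symm 1)).L
        (P.pullbackAlong ((R.pts K).symm 1)).isInvertible = 1)
    {Y : Scheme.{u}} (y : Y ⟶ Spec (CommRingCat.of k)) [LocallyOfFiniteType y]
    [GeometricallyIntegral y] (Φ : SchemeHomOver y R.toBase)
    (hΦ : ∀ (K : Type u) [Field K] [IsAlgClosed K] [Algebra k K]
      (v : SchemeHomOver (specTo k K) R.toBase),
      ∃ q : SchemeHomOver (specTo k K) y, q.1 ≫ Φ.1 = v.1) :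
    FibrewiseAlgEquivZero P := by
  intro K _ _ s
  obtain ⟨inst, hs⟩ := exists_algebra_specTo (k := k) (R := CommRingCat.of K) (s ≫ R.toBase)
  let sOver : SchemeHomOver (specTo k K) R.toBase := ⟨s, hs.symm⟩
  let h := pullback.snd y (specTo k K)
  let a := fibreAt c R.toBase s
  let N : pullback a h ⟶ pullback c R.toBase :=
    pullback.lift
      (pullback.fst a h ≫ pullback.fst (pullback.snd c R.toBase) s ≫ pullback.fst c R.toBase)
      (pullback.snd a h ≫ pullback.fst y (specTo k K) ≫ Φ.1) (by
        simp only [Category.assoc, pullback.condition, Φ.2]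
        rw [← Category.assoc (pullback.fst (pullback.snd c R.toBase) s), pullback.condition,
          Category.assoc, ← hs]
        change pullback.fst a h ≫ a ≫ specTo k K = pullback.snd a h ≫ h ≫ specTo k K
        rw [← Category.assoc, pullback.condition, Category.assoc])
  refine ⟨pullback y (specTo k K), h, inferInstance, inferInstance,
    (Scheme.Modules.pullback N).obj P.L, P.isInvertible.pullback _, ?_⟩
  obtain ⟨q0, hq0⟩ := hΦ K ((R.pts K).symm 1)
  obtain ⟨q1, hq1⟩ := hΦ K sOver
  let sec : SchemeHomOver (specTo k K) y → SchemeHomOver (𝟙 (Spec (CommRingCat.of K))) h :=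
    fun q => ⟨pullback.lift q.1 (𝟙 _) (by rw [q.2, Category.id_comp]), pullback.lift_snd _ _ _⟩
  let toCK : pullback (pullback.snd c R.toBase) s ⟶ pullback c (specTo k K) :=
    pullback.lift (pullback.fst (pullback.snd c R.toBase) s ≫ pullback.fst c R.toBase)
      (pullback.snd (pullback.snd c R.toBase) s) (by
        rw [Category.assoc, pullback.condition, ← Category.assoc, pullback.condition,
          Category.assoc, ← hs])
  have key : ∀ (q : SchemeHomOver (specTo k K) y) (v : SchemeHomOver (specTo k K) R.toBase),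
      q.1 ≫ Φ.1 = v.1 → baseChangeSnd a (sec q) ≫ N =
        (pullback.fst a (𝟙 _) ≫ toCK) ≫ baseChangeSnd c v := by
    intro q v hv
    have hfs : pullback.fst a (𝟙 _) ≫ pullback.snd (pullback.snd c R.toBase) s =
        pullback.snd a (𝟙 _) := pullback.condition.trans (Category.comp_id _)
    apply pullback.hom_ext
    · simp [pullback.lift_fst, pullback.lift_fst_assoc, N, toCK, baseChangeSnd, sec, h]
    · simp [pullback.lift_snd, pullback.lift_fst_assoc, pullback.lift_snd_assoc,
        N, toCK, baseChangeSnd, sec, h, hv, reassoc_of% hfs]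
  refine ⟨sec q0, sec q1, ?_, ?_⟩
  · obtain ⟨i⟩ := modules_pullback_comp _ _ _ (key q0 _ hq0) P.L
    obtain ⟨j⟩ := modules_pullback_comp (pullback.fst a (𝟙 _) ≫ toCK)
      (baseChangeSnd c ((R.pts K).symm 1)) _ rfl P.L
    obtain ⟨l⟩ := (d.cls_eq_iff K _ _ (P.pullbackAlong ((R.pts K).symm 1)).isInvertible
      (Scheme.Modules.isInvertible_unit _)).1 ((hone K).trans (d.cls_unit K).symm)
    exact ⟨i ≪≫ j.symm ≪≫ (Scheme.Modules.pullback (pullback.fst a (𝟙 _) ≫ toCK)).mapIso l ≪≫
      Scheme.Modules.pullbackUnitIso _⟩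
  · have hcomp : toCK ≫ baseChangeSnd c sOver = pullback.fst (pullback.snd c R.toBase) s := by
      apply pullback.hom_ext
      · simp [pullback.lift_fst, toCK, baseChangeSnd]
      · simp [pullback.lift_snd, pullback.lift_snd_assoc,
          toCK, baseChangeSnd, sOver, pullback.condition]
    obtain ⟨i⟩ := modules_pullback_comp _ _ _ (key q1 sOver hq1) P.L
    obtain ⟨j⟩ := modules_pullback_comp (pullback.fst a (𝟙 _))
      (pullback.fst (pullback.snd c R.toBase) s) _ rfl P.L
    exact ⟨i ≪≫ (Scheme.Modules.pullbackCongr (by rw [Category.assoc, hcomp])).app P.L ≪≫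
      j.symm⟩

end Fermat.Agent.Jac
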