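import Fermat.Agent.Jac.Dict
import Fermat.Agent.Jac.Descent
import Fermat.Agent.Jac.AffinePoints

/-!
# Classes of rigidified bundles over affine schemes

`exists_glue_basicOpen` glues classes along basic opens, through rigidified bundles.
-/

set_option autoImplicit false

universe u

open CategoryTheory CategoryTheory.Limits AlgebraicGeometry AlgebraicGeometry.RelPicard
  NeronModelInfra
open scoped TensorProduct

namespace Fermat.Agent.Jac

variable {k : Type u} [Field k] {m : CurveModel k} {C : Scheme.{u}}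
  {c : C ⟶ Spec (CommRingCat.of k)}
  {ε : SchemeHomOver (𝟙 (Spec (CommRingCat.of k))) c} {G : m.Geo c ε}

/-- Pulling back a module in two steps. -/
theorem modules_pullback_comp {X Y Z : Scheme.{u}} (f : X ⟶ Y) (g : Y ⟶ Z) (h : X ⟶ Z)
    (e : f ≫ g = h) (L : Z.Modules) :
    Nonempty ((Scheme.Modules.pullback f).obj ((Scheme.Modules.pullback g).obj L) ≅
      (Scheme.Modules.pullback h).obj L) :=
  ⟨(Scheme.Modules.pullbackComp f g).app L ≪≫ (Scheme.Modules.pullbackCongr e).app L⟩

theorem pullbackAlong_trans {V W X : Scheme.{u}} {v : V ⟶ Spec (CommRingCat.of k)}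
    {w : W ⟶ Spec (CommRingCat.of k)} {x : X ⟶ Spec (CommRingCat.of k)}
    (M : RigidifiedLineBundle c ε x) (a : SchemeHomOver v w) (b : SchemeHomOver w x)
    (ab : SchemeHomOver v x) (e : a.1 ≫ b.1 = ab.1) :
    Nonempty (((M.pullbackAlong b).pullbackAlong a).L ≅ (M.pullbackAlong ab).L) := by
  obtain rfl : ab = compOver a b := Subtype.ext e.symm
  exact modules_pullback_comp _ _ _ (baseChangeSnd_comp c b a) M.L

theorem cls_congr (d : G.Dictionary) {A : Type u} [CommRing A] [Algebra k A]
    (M M' : RigidifiedLineBundle c ε (specTo k A)) (h : Nonempty (M.L ≅ M'.L)) :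
    d.cls A M.L M.isInvertible = d.cls A M'.L M'.isInvertible :=
  (d.cls_eq_iff A _ _ _ _).2 h

/-- A class trivial along the marked section is the class of a rigidified bundle. -/
theorem exists_rigidified_of_rigTriv (d : G.Dictionary) {A : Type u} [CommRing A] [Algebra k A]
    (x : Cl m A) (hx : x.RigTriv) :
    ∃ M : RigidifiedLineBundle c ε (specTo k A), d.cls A M.L M.isInvertible = x := by
  obtain ⟨L, hL, rfl⟩ := d.cls_surjective A x
  exact ⟨⟨L, hL, (d.rigTriv_iff A L hL).1 hx⟩, rfl⟩

/-- The basic open as a spectrum over the base. -/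
noncomputable def basicOpenHom (k : Type u) [Field k] {A : Type u} [CommRing A] [Algebra k A]
    (f : A) :
    SchemeHomOver ((Scheme.Opens.ι (X := Spec (CommRingCat.of A))
      (PrimeSpectrum.basicOpen f)) ≫ specTo k A) (specTo k (Localization.Away f)) :=
  ⟨(basicOpenIsoSpecAway (R := CommRingCat.of A) f).hom, by
    rw [← basicOpenIsoSpecAway_hom_SpecMap (R := CommRingCat.of A) f, Category.assoc]
    congr 1
    rw [specTo, specTo, ← Spec.map_comp, ← CommRingCat.ofHom_comp,
      ← IsScalarTower.algebraMap_eq]⟩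

theorem basicOpenHom_comp {A : Type u} [CommRing A] [Algebra k A] (f : A) :
    (basicOpenHom k f).1 ≫
        (specMapOver (IsScalarTower.toAlgHom k A (Localization.Away f))).1 =
      Scheme.Opens.ι (X := Spec (CommRingCat.of A)) (PrimeSpectrum.basicOpen f) :=
  basicOpenIsoSpecAway_hom_SpecMap (R := CommRingCat.of A) f

theorem iSup_basicOpen_finset {A : Type u} [CommRing A] (s : Finset A)
    (hs : Ideal.span (s : Set A) = ⊤) :
    (⨆ f : s, (PrimeSpectrum.basicOpen (f : A) :
      (Spec (CommRingCat.of A)).Opens)) = ⊤ := by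
  refine PrimeSpectrum.iSup_basicOpen_eq_top_iff.mpr ?_
  rwa [show Set.range (fun f : s => (f : A)) = (s : Set A) from Subtype.range_coe]

/-- Classes over an affine scheme are detected on basic opens. -/
theorem rigidified_ext_basicOpen (hc : ConstFunctions c) (d : G.Dictionary) {A : Type u}
    [CommRing A] [Algebra k A] (s : Finset A) (hs : Ideal.span (s : Set A) = ⊤)
    (M M' : RigidifiedLineBundle c ε (specTo k A))
    (h : ∀ f ∈ s, Cl.map (IsScalarTower.toAlgHom k A (Localization.Away f))
        (d.cls A M.L M.isInvertible) =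
      Cl.map (IsScalarTower.toAlgHom k A (Localization.Away f))
        (d.cls A M'.L M'.isInvertible)) :
    Nonempty (M.L ≅ M'.L) := by
  refine rigidified_ext hc (specTo k A)
    (fun f : s => (PrimeSpectrum.basicOpen (f : A) : (Spec (CommRingCat.of A)).Opens))
    (iSup_basicOpen_finset s hs) M M' fun f => ?_
  have h1 := h f f.2
  rw [← d.cls_pullback A _ (IsScalarTower.toAlgHom k A (Localization.Away (f : A))),
    ← d.cls_pullback A _ (IsScalarTower.toAlgHom k A (Localization.Away (f : A)))] at h1
  obtain ⟨l⟩ := RigidifiedLineBundle.pullbackAlong_congr (basicOpenHom k (f : A))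
    (M := M.pullbackAlong (specMapOver (IsScalarTower.toAlgHom k A (Localization.Away (f : A)))))
    (M' := M'.pullbackAlong (specMapOver (IsScalarTower.toAlgHom k A (Localization.Away (f : A)))))
    ((d.cls_eq_iff _ _ _ _ _).1 h1)
  obtain ⟨i⟩ := pullbackAlong_trans M (basicOpenHom k (f : A)) _ (opensOver _ _)
    (basicOpenHom_comp (f : A))
  obtain ⟨i'⟩ := pullbackAlong_trans M' (basicOpenHom k (f : A)) _ (opensOver _ _)
    (basicOpenHom_comp (f : A))
  exact ⟨i.symm ≪≫ l ≪≫ i'⟩

/-- The ring of sections of an affine open, as an affine test object. -/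
theorem exists_affine_chart {T : Scheme.{u}} (t : T ⟶ Spec (CommRingCat.of k)) (U : T.Opens)
    (hU : IsAffineOpen U) :
    ∃ (B : Type u) (_ : CommRing B) (_ : Algebra k B) (a : SchemeHomOver (specTo k B) t)
      (e : SchemeHomOver (U.ι ≫ t) (specTo k B)), e.1 ≫ a.1 = U.ι := by
  obtain ⟨inst, hi⟩ := exists_algebra_specTo (hU.fromSpec ≫ t)
  exact ⟨Γ(T, U), inferInstance, inst, ⟨hU.fromSpec, hi.symm⟩,
    ⟨hU.isoSpec.hom, by rw [hi, IsAffineOpen.isoSpec_hom_fromSpec_assoc]⟩,
    hU.isoSpec_hom_fromSpec⟩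

/-- Classes trivial along the marked section glue along basic opens. -/
theorem exists_glue_basicOpen (hc : ConstFunctions c) (d : G.Dictionary) {A : Type u}
    [CommRing A] [Algebra k A] (s : Finset A) (hs : Ideal.span (s : Set A) = ⊤)
    (x : ∀ f : s, Cl m (Localization.Away (f : A))) (hx : ∀ f, (x f).RigTriv)
    (h : ∀ (f g : s) (B : Type u) [CommRing B] [Algebra k B]
      (φ : Localization.Away (f : A) →ₐ[k] B) (ψ : Localization.Away (g : A) →ₐ[k] B),
      φ.comp (IsScalarTower.toAlgHom k A _) = ψ.comp (IsScalarTower.toAlgHom k A _) →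
      Cl.map φ (x f) = Cl.map ψ (x g)) :
    ∃ y : Cl m A, y.RigTriv ∧
      ∀ f : s, Cl.map (IsScalarTower.toAlgHom k A (Localization.Away (f : A))) y = x f := by
  choose M hM using fun f : s => exists_rigidified_of_rigTriv d (x f) (hx f)
  obtain ⟨N, hN⟩ := rigidified_glue hc (specTo k A)
    (fun f : s => (PrimeSpectrum.basicOpen (f : A) : (Spec (CommRingCat.of A)).Opens))
    (iSup_basicOpen_finset s hs) (fun f => (M f).pullbackAlong (basicOpenHom k (f : A)))
    (fun f g V v a b hab => by
      refine rigidified_ext hc v (fun W : V.affineOpens => (W : V.Opens))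
        (iSup_affineOpens_eq_top V) _ _ fun W => ?_
      obtain ⟨B, _, _, w, e, he⟩ := exists_affine_chart v W.1 W.2
      obtain ⟨φ, hφ⟩ := exists_specMapOver_eq
        (compOver w (compOver a (basicOpenHom k (f : A))))
      obtain ⟨ψ, hψ⟩ := exists_specMapOver_eq
        (compOver w (compOver b (basicOpenHom k (g : A))))
      have hφψ : φ.comp (IsScalarTower.toAlgHom k A _) =
          ψ.comp (IsScalarTower.toAlgHom k A _) := by
        have hspec : (specMapOver φ).1 ≫
            (specMapOver (IsScalarTower.toAlgHom k A (Localization.Away (f : A)))).1 =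
            (specMapOver ψ).1 ≫
            (specMapOver (IsScalarTower.toAlgHom k A (Localization.Away (g : A)))).1 := by
          rw [hφ, hψ]
          change (w.1 ≫ a.1 ≫ (basicOpenHom k (f : A)).1) ≫ _ =
            (w.1 ≫ b.1 ≫ (basicOpenHom k (g : A)).1) ≫ _
          simp only [Category.assoc, basicOpenHom_comp, hab]
        simp only [specMapOver, ← Spec.map_comp, Spec.map_inj, ← CommRingCat.ofHom_comp] at hspec
        exact AlgHom.coe_ringHom_injective (congrArg CommRingCat.Hom.hom hspec)
      have hcl := h f g B φ ψ hφψ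
      rw [← hM f, ← hM g, ← d.cls_pullback _ _ φ, ← d.cls_pullback _ _ ψ] at hcl
      obtain ⟨l⟩ := RigidifiedLineBundle.pullbackAlong_congr e
        (M := (M f).pullbackAlong (specMapOver φ)) (M' := (M g).pullbackAlong (specMapOver ψ))
        ((d.cls_eq_iff _ _ _ _ _).1 hcl)
      obtain ⟨p1⟩ := pullbackAlong_trans ((M f).pullbackAlong (basicOpenHom k (f : A)))
        (opensOver v W.1) a (compOver (opensOver v W.1) a) rfl
      obtain ⟨p2⟩ := pullbackAlong_trans (M f) (compOver (opensOver v W.1) a)
        (basicOpenHom k (f : A)) (compOver e (specMapOver φ)) (by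
          rw [hφ]
          change (W.1.ι ≫ a.1) ≫ _ = e.1 ≫ w.1 ≫ a.1 ≫ _
          rw [Category.assoc]
          exact ((reassoc_of% he) _).symm)
      obtain ⟨p3⟩ := pullbackAlong_trans (M f) e (specMapOver φ)
        (compOver e (specMapOver φ)) rfl
      obtain ⟨q1⟩ := pullbackAlong_trans ((M g).pullbackAlong (basicOpenHom k (g : A)))
        (opensOver v W.1) b (compOver (opensOver v W.1) b) rfl
      obtain ⟨q2⟩ := pullbackAlong_trans (M g) (compOver (opensOver v W.1) b)
        (basicOpenHom k (g : A)) (compOver e (specMapOver ψ)) (by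
          rw [hψ]
          change (W.1.ι ≫ b.1) ≫ _ = e.1 ≫ w.1 ≫ b.1 ≫ _
          rw [Category.assoc]
          exact ((reassoc_of% he) _).symm)
      obtain ⟨q3⟩ := pullbackAlong_trans (M g) e (specMapOver ψ)
        (compOver e (specMapOver ψ)) rfl
      exact ⟨p1 ≪≫ p2 ≪≫ p3.symm ≪≫ l ≪≫ q3 ≪≫ q2.symm ≪≫ q1.symm⟩)
  refine ⟨d.cls A N.L N.isInvertible, (d.rigTriv_iff A _ _).2 N.rigidified, fun f => ?_⟩
  rw [← hM f, ← d.cls_pullback A _ (IsScalarTower.toAlgHom k A (Localization.Away (f : A)))]
  let r := IsScalarTower.toAlgHom k A (Localization.Away (f : A))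
  let i : SchemeHomOver (specTo k (Localization.Away (f : A)))
      ((Scheme.Opens.ι (X := Spec (CommRingCat.of A))
        (PrimeSpectrum.basicOpen (f : A))) ≫ specTo k A) :=
    ⟨(basicOpenIsoSpecAway (R := CommRingCat.of A) (f : A)).inv, by
      rw [Iso.inv_comp_eq]
      exact (basicOpenHom k (f : A)).2.symm⟩
  obtain ⟨p⟩ := pullbackAlong_trans N i (opensOver _ _) (specMapOver r) (by
    change (basicOpenIsoSpecAway (R := CommRingCat.of A) (f : A)).inv ≫
      Scheme.Opens.ι (X := Spec (CommRingCat.of A)) _ = _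
    rw [Iso.inv_comp_eq]
    exact (basicOpenHom_comp (f : A)).symm)
  obtain ⟨q⟩ := pullbackAlong_trans (M f) i (basicOpenHom k (f : A))
    (⟨𝟙 _, Category.id_comp _⟩)
    ((basicOpenIsoSpecAway (R := CommRingCat.of A) (f : A)).inv_hom_id)
  obtain ⟨l⟩ := RigidifiedLineBundle.pullbackAlong_congr i (hN f)
  exact (d.cls_eq_iff _ _ _ _ _).2 ⟨p.symm ≪≫ l ≪≫ q ≪≫
    (Scheme.Modules.pullbackCongr (baseChangeSnd_id c _)).app _ ≪≫
    (Scheme.Modules.pullbackId _).app _⟩

end Fermat.Agent.Jac
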