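import Fermat.Agent.Jac.Geo
import Fermat.Agent.Jac.Represent

/-!
# The two affine charts of the curve over an affine base

The charts form an open cover of the curve over an affine base meeting in the overlap.
-/

set_option autoImplicit false

universe u

open CategoryTheory CategoryTheory.Limits AlgebraicGeometry NeronModelInfra
open scoped TensorProduct

namespace Fermat.Agent.Jac

/-- `Spec` of an algebra tensor product is the fibre product. -/
theorem isPullback_specTensor (k A B : Type u) [CommRing k] [CommRing A] [Algebra k A]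
    [CommRing B] [Algebra k B] :
    IsPullback
      (Spec.map (CommRingCat.ofHom
        (Algebra.TensorProduct.includeRight : B →ₐ[k] A ⊗[k] B).toRingHom))
      (Spec.map (CommRingCat.ofHom
        (Algebra.TensorProduct.includeLeftRingHom : A →+* A ⊗[k] B)))
      (specTo k B) (specTo k A) :=
  (isPullback_SpecMap_of_isPushout _ _ _ _ (CommRingCat.isPushout_tensorProduct k A B)).flip

variable {k : Type u} [Field k] {m : CurveModel k} {C : Scheme.{u}}
  {c : C ⟶ Spec (CommRingCat.of k)}
  {ε : SchemeHomOver (𝟙 (Spec (CommRingCat.of k))) c} (G : m.Geo c ε)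
variable (A : Type u) [CommRing A] [Algebra k A]

/-- The first chart of the curve over `A`. -/
noncomputable def CurveModel.Geo.chartMap0 :
    Spec (CommRingCat.of (m.R0 A)) ⟶ pullback c (specTo k A) :=
  pullback.lift
    (Spec.map (CommRingCat.ofHom
      (Algebra.TensorProduct.includeRight : m.B0 →ₐ[k] A ⊗[k] m.B0).toRingHom) ≫ G.u0)
    (Spec.map (CommRingCat.ofHom
      (Algebra.TensorProduct.includeLeftRingHom : A →+* A ⊗[k] m.B0)))
    (by rw [Category.assoc, G.u0_over]; exact (isPullback_specTensor k A m.B0).w)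

/-- The second chart of the curve over `A`. -/
noncomputable def CurveModel.Geo.chartMap1 :
    Spec (CommRingCat.of (m.R1 A)) ⟶ pullback c (specTo k A) :=
  pullback.lift
    (Spec.map (CommRingCat.ofHom
      (Algebra.TensorProduct.includeRight : m.B1 →ₐ[k] A ⊗[k] m.B1).toRingHom) ≫ G.u1)
    (Spec.map (CommRingCat.ofHom
      (Algebra.TensorProduct.includeLeftRingHom : A →+* A ⊗[k] m.B1)))
    (by rw [Category.assoc, G.u1_over]; exact (isPullback_specTensor k A m.B1).w)

theorem CurveModel.Geo.isPullback_chartMap0 :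
    IsPullback
      (Spec.map (CommRingCat.ofHom
        (Algebra.TensorProduct.includeRight : m.B0 →ₐ[k] A ⊗[k] m.B0).toRingHom))
      (G.chartMap0 A) G.u0 (pullback.fst c (specTo k A)) := by
  refine IsPullback.of_bot ?_ ?_ (IsPullback.of_hasPullback c (specTo k A))
  · rw [CurveModel.Geo.chartMap0, pullback.lift_snd, G.u0_over]
    exact isPullback_specTensor k A m.B0
  · rw [CurveModel.Geo.chartMap0, pullback.lift_fst]

theorem CurveModel.Geo.isPullback_chartMap1 :
    IsPullback
      (Spec.map (CommRingCat.ofHom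
        (Algebra.TensorProduct.includeRight : m.B1 →ₐ[k] A ⊗[k] m.B1).toRingHom))
      (G.chartMap1 A) G.u1 (pullback.fst c (specTo k A)) := by
  refine IsPullback.of_bot ?_ ?_ (IsPullback.of_hasPullback c (specTo k A))
  · rw [CurveModel.Geo.chartMap1, pullback.lift_snd, G.u1_over]
    exact isPullback_specTensor k A m.B1
  · rw [CurveModel.Geo.chartMap1, pullback.lift_fst]

theorem CurveModel.Geo.isOpenImmersion_chartMap0 : IsOpenImmersion (G.chartMap0 A) :=
  MorphismProperty.of_isPullback (P := @IsOpenImmersion) (G.isPullback_chartMap0 A)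
    G.isOpenImmersion0

theorem CurveModel.Geo.isOpenImmersion_chartMap1 : IsOpenImmersion (G.chartMap1 A) :=
  MorphismProperty.of_isPullback (P := @IsOpenImmersion) (G.isPullback_chartMap1 A)
    G.isOpenImmersion1

/-- The two charts cover the curve over an affine base. -/
theorem CurveModel.Geo.range_chartMap :
    Set.range (G.chartMap0 A).base ∪ Set.range (G.chartMap1 A).base = Set.univ := by
  refine Set.eq_univ_iff_forall.mpr fun x => ?_
  rcases Set.eq_univ_iff_forall.mp G.range_union ((pullback.fst c (specTo k A)).base x) with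
    ⟨y, hy⟩ | ⟨y, hy⟩
  · obtain ⟨z, -, hz⟩ := Scheme.Pullback.exists_preimage_pullback y x hy
    refine Or.inl ⟨(G.isPullback_chartMap0 A).isoPullback.inv z, ?_⟩
    rw [← Scheme.Hom.comp_apply, (G.isPullback_chartMap0 A).isoPullback_inv_snd]
    exact hz
  · obtain ⟨z, -, hz⟩ := Scheme.Pullback.exists_preimage_pullback y x hy
    refine Or.inr ⟨(G.isPullback_chartMap1 A).isoPullback.inv z, ?_⟩
    rw [← Scheme.Hom.comp_apply, (G.isPullback_chartMap1 A).isoPullback_inv_snd]
    exact hz

/-- The two charts meet in the overlap. -/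
theorem CurveModel.Geo.isPullback_chartMap :
    IsPullback (Spec.map (CommRingCat.ofHom (m.ι0 A))) (Spec.map (CommRingCat.ofHom (m.ι1 A)))
      (G.chartMap0 A) (G.chartMap1 A) := by
  let r0 := Spec.map (CommRingCat.ofHom
    (Algebra.TensorProduct.includeRight : m.B0 →ₐ[k] A ⊗[k] m.B0).toRingHom)
  let r1 := Spec.map (CommRingCat.ofHom
    (Algebra.TensorProduct.includeRight : m.B1 →ₐ[k] A ⊗[k] m.B1).toRingHom)
  let r01 := Spec.map (CommRingCat.ofHom
    (Algebra.TensorProduct.includeRight : m.B01 →ₐ[k] A ⊗[k] m.B01).toRingHom)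
  let s0 := Spec.map (CommRingCat.ofHom m.i0.toRingHom)
  let s1 := Spec.map (CommRingCat.ofHom m.i1.toRingHom)
  let t0 := Spec.map (CommRingCat.ofHom (m.ι0 A))
  let t1 := Spec.map (CommRingCat.ofHom (m.ι1 A))
  let l0 := Spec.map (CommRingCat.ofHom
    (Algebra.TensorProduct.includeLeftRingHom : A →+* A ⊗[k] m.B0))
  let l1 := Spec.map (CommRingCat.ofHom
    (Algebra.TensorProduct.includeLeftRingHom : A →+* A ⊗[k] m.B1))
  let l01 := Spec.map (CommRingCat.ofHom
    (Algebra.TensorProduct.includeLeftRingHom : A →+* A ⊗[k] m.B01))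
  have e0 : r01 ≫ s0 = t0 ≫ r0 := by
    simp only [r01, s0, t0, r0, ← Spec.map_comp, ← CommRingCat.ofHom_comp]
    congr 2
  have e1 : r01 ≫ s1 = t1 ≫ r1 := by
    simp only [r01, s1, t1, r1, ← Spec.map_comp, ← CommRingCat.ofHom_comp]
    congr 2
  have f0 : t0 ≫ l0 = l01 := by
    simp only [l01, t0, l0, ← Spec.map_comp, ← CommRingCat.ofHom_comp]
    congr 2
    exact RingHom.ext fun b => by simp [CurveModel.ι0]
  have f1 : t1 ≫ l1 = l01 := by
    simp only [l01, t1, l1, ← Spec.map_comp, ← CommRingCat.ofHom_comp]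
    congr 2
    exact RingHom.ext fun b => by simp [CurveModel.ι1]
  have hS1 : s1 ≫ specTo k m.B1 = specTo k m.B01 := by
    simp only [s1, specTo, ← Spec.map_comp, ← CommRingCat.ofHom_comp]
    congr 2
    exact m.i1.comp_algebraMap
  have hT : IsPullback r01 t1 s1 r1 := by
    refine IsPullback.of_bot ?_ e1 (isPullback_specTensor k A m.B1)
    rw [f1, hS1]
    exact isPullback_specTensor k A m.B01
  have hbig : IsPullback (r01 ≫ s0) t1 G.u0 (r1 ≫ G.u1) := hT.paste_horiz G.isPullback
  rw [e0] at hbig
  have hfst : G.chartMap1 A ≫ pullback.fst c (specTo k A) = r1 ≫ G.u1 :=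
    pullback.lift_fst _ _ _
  rw [← hfst] at hbig
  refine hbig.of_right ?_ (G.isPullback_chartMap0 A)
  apply pullback.hom_ext
  · have hfst0 : G.chartMap0 A ≫ pullback.fst c (specTo k A) = r0 ≫ G.u0 :=
      pullback.lift_fst _ _ _
    show (t0 ≫ G.chartMap0 A) ≫ _ = (t1 ≫ G.chartMap1 A) ≫ _
    rw [Category.assoc, Category.assoc, hfst0, hfst, ← Category.assoc, ← Category.assoc, ← e0,
      ← e1, Category.assoc, Category.assoc]
    exact congrArg (r01 ≫ ·) G.isPullback.w
  · show (t0 ≫ G.chartMap0 A) ≫ _ = (t1 ≫ G.chartMap1 A) ≫ _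
    have hsnd0 : G.chartMap0 A ≫ pullback.snd c (specTo k A) = l0 := pullback.lift_snd _ _ _
    have hsnd1 : G.chartMap1 A ≫ pullback.snd c (specTo k A) = l1 := pullback.lift_snd _ _ _
    rw [Category.assoc, Category.assoc, hsnd0, hsnd1, f0, f1]

end Fermat.Agent.Jac
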