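import Fermat.Agent.Jac.Cut.Glue
import Fermat.Agent.Jac.Descent
import Fermat.Agent.Jac.Cut.Charts

/-!
# Functions on the curve over a test scheme are functions on the test scheme

`constFunctions_of_charts` proves this from the two-chart model.
-/

set_option autoImplicit false

universe u

open CategoryTheory CategoryTheory.Limits AlgebraicGeometry NeronModelInfra TopologicalSpace
open scoped TensorProduct

namespace Fermat.Agent.Jac

variable {k : Type u} [Field k] {m : CurveModel k} {C : Scheme.{u}}
  {c : C ⟶ Spec (CommRingCat.of k)}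
  {ε : SchemeHomOver (𝟙 (Spec (CommRingCat.of k))) c}

theorem Spec_map_appTop_apply {R S : CommRingCat.{u}} (f : R ⟶ S) (x : R) :
    (Spec.map f).appTop ((Scheme.ΓSpecIso R).inv x) = (Scheme.ΓSpecIso S).inv (f x) :=
  (congrArg (fun e => (ConcreteCategory.hom e) x) (Scheme.ΓSpecIso_inv_naturality f)).symm

/-- The global functions of the curve over an affine base are the functions on the base. -/
theorem bijective_snd_appTop_spec (G : m.Geo c ε) (A : Type u) [CommRing A] [Algebra k A] :
    Function.Bijective (pullback.snd c (specTo k A)).appTop.hom := by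
  have := G.isOpenImmersion_chartMap0 A
  have := G.isOpenImmersion_chartMap1 A
  have hr := G.range_chartMap A
  have hP := G.isPullback_chartMap A
  have key : ∀ a : A,
      (G.chartMap0 A).appTop ((pullback.snd c (specTo k A)).appTop
        ((Scheme.ΓSpecIso (CommRingCat.of A)).inv a)) =
        (Scheme.ΓSpecIso (CommRingCat.of (m.R0 A))).inv (algebraMap A (m.R0 A) a) ∧
      (G.chartMap1 A).appTop ((pullback.snd c (specTo k A)).appTop
        ((Scheme.ΓSpecIso (CommRingCat.of A)).inv a)) =
        (Scheme.ΓSpecIso (CommRingCat.of (m.R1 A))).inv (algebraMap A (m.R1 A) a) := by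
    intro a
    constructor
    · rw [← CommRingCat.comp_apply (pullback.snd c (specTo k A)).appTop,
        ← Scheme.Hom.comp_appTop, CurveModel.Geo.chartMap0, pullback.lift_snd,
        Spec_map_appTop_apply]
      rfl
    · rw [← CommRingCat.comp_apply (pullback.snd c (specTo k A)).appTop,
        ← Scheme.Hom.comp_appTop, CurveModel.Geo.chartMap1, pullback.lift_snd,
        Spec_map_appTop_apply]
      rfl
  constructor
  · intro x y hxy
    obtain ⟨a, rfl⟩ : ∃ a : A, (Scheme.ΓSpecIso (CommRingCat.of A)).inv a = x :=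
      (ConcreteCategory.bijective_of_isIso (Scheme.ΓSpecIso (CommRingCat.of A)).inv).2 x
    obtain ⟨b, rfl⟩ : ∃ b : A, (Scheme.ΓSpecIso (CommRingCat.of A)).inv b = y :=
      (ConcreteCategory.bijective_of_isIso (Scheme.ΓSpecIso (CommRingCat.of A)).inv).2 y
    have h := congrArg (fun z => (G.chartMap0 A).appTop z) hxy
    have h2 : algebraMap A (m.R0 A) a = algebraMap A (m.R0 A) b :=
      (ConcreteCategory.bijective_of_isIso (Scheme.ΓSpecIso (CommRingCat.of (m.R0 A))).inv).1
        ((key a).1.symm.trans (h.trans (key b).1))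
    have h01 : m.ι0 A (algebraMap A (m.R0 A) a) = m.ι1 A (algebraMap A (m.R1 A) a) := by
      simp [CurveModel.ι0, CurveModel.ι1]
    obtain ⟨w, -, hw⟩ := m.existsUnique_const A _ _ h01
    rw [hw a rfl, hw b h2]
  · intro x
    obtain ⟨x0, hx0⟩ := (ConcreteCategory.bijective_of_isIso
      (Scheme.ΓSpecIso (CommRingCat.of (m.R0 A))).inv).2 ((G.chartMap0 A).appTop x)
    obtain ⟨x1, hx1⟩ := (ConcreteCategory.bijective_of_isIso
      (Scheme.ΓSpecIso (CommRingCat.of (m.R1 A))).inv).2 ((G.chartMap1 A).appTop x)
    have hc : m.ι0 A x0 = m.ι1 A x1 := by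
      apply (ConcreteCategory.bijective_of_isIso
        (Scheme.ΓSpecIso (CommRingCat.of (m.R01 A))).inv).1
      have e0 : (Spec.map (CommRingCat.ofHom (m.ι0 A))).appTop ((G.chartMap0 A).appTop x) =
          (Spec.map (CommRingCat.ofHom (m.ι1 A))).appTop ((G.chartMap1 A).appTop x) := by
        rw [← CommRingCat.comp_apply, ← CommRingCat.comp_apply, ← Scheme.Hom.comp_appTop,
          ← Scheme.Hom.comp_appTop, hP.w]
      rw [← hx0, ← hx1, Spec_map_appTop_apply, Spec_map_appTop_apply] at e0
      exact e0
    obtain ⟨a, ha, -⟩ := m.existsUnique_const A x0 x1 hc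
    have ha1 : x1 = algebraMap A (m.R1 A) a := by
      apply m.ι1_restriction_injective A
      rw [← hc, ha]
      simp [CurveModel.ι0, CurveModel.ι1]
    refine ⟨(Scheme.ΓSpecIso (CommRingCat.of A)).inv a, sections_ext_two hr ?_ ?_⟩
    · exact (key a).1.trans ((congrArg _ ha.symm).trans hx0)
    · exact (key a).2.trans ((congrArg _ ha1.symm).trans hx1)

/-- Invariance of the conclusion under isomorphisms of squares. -/
theorem bijective_appTop_comp_iso {X Y Z W : Scheme.{u}} (e : X ≅ Y) (f : Y ⟶ Z) (e' : Z ≅ W)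
    (h : Function.Bijective f.appTop.hom) :
    Function.Bijective (e.hom ≫ f ≫ e'.hom).appTop.hom := by
  rw [Scheme.Hom.comp_appTop, Scheme.Hom.comp_appTop, CommRingCat.hom_comp, CommRingCat.hom_comp]
  have : IsIso e.hom.appTop := inferInstanceAs (IsIso (Scheme.Γ.map e.hom.op))
  have : IsIso e'.hom.appTop := inferInstanceAs (IsIso (Scheme.Γ.map e'.hom.op))
  exact ((ConcreteCategory.bijective_of_isIso e.hom.appTop).comp h).comp
    (ConcreteCategory.bijective_of_isIso e'.hom.appTop)

theorem bijective_snd_app_of_isAffineOpen (G : m.Geo c ε) {T : Scheme.{u}}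
    (t : T ⟶ Spec (CommRingCat.of k)) (U : T.Opens) (hU : IsAffineOpen U) :
    Function.Bijective ((pullback.snd c t).app U).hom := by
  let e : U.toScheme ≅ Spec (CommRingCat.of Γ(T, U)) := hU.isoSpec
  let _ : Algebra k Γ(T, U) := (Spec.preimage (e.inv ≫ U.ι ≫ t)).hom.toAlgebra
  have ht : U.ι ≫ t = e.hom ≫ specTo k Γ(T, U) := by
    rw [specTo, ← Iso.inv_comp_eq]
    exact (Spec.map_preimage _).symm
  let f := pullback.snd c t
  have h1 : IsPullback ((f ⁻¹ᵁ U).ι ≫ pullback.fst c t) (f ∣_ U) c (U.ι ≫ t) :=
    (isPullback_morphismRestrict f U).flip.paste_horiz (IsPullback.of_hasPullback c t)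
  have h2 : IsPullback ((f ⁻¹ᵁ U).ι ≫ pullback.fst c t) ((f ∣_ U) ≫ e.hom) c
      (specTo k Γ(T, U)) := by
    refine h1.of_iso (Iso.refl _) (Iso.refl _) e (Iso.refl _) ?_ ?_ ?_ ?_
    · simp
    · simp
    · simp
    · simpa using ht
  have h3 : (f ∣_ U) = h2.isoPullback.hom ≫ pullback.snd c (specTo k Γ(T, U)) ≫ e.inv := by
    rw [← Category.assoc, IsPullback.isoPullback_hom_snd, Category.assoc, e.hom_inv_id,
      Category.comp_id]
  have h4 : Function.Bijective (f ∣_ U).appTop.hom := by
    rw [h3]
    exact bijective_appTop_comp_iso h2.isoPullback _ e.symm (bijective_snd_appTop_spec G _)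
  rw [morphismRestrict_appTop] at h4
  have h5 : Function.Bijective (f.app (U.ι ''ᵁ ⊤)).hom :=
    (Function.Bijective.of_comp_iff' (ConcreteCategory.bijective_of_isIso
      ((pullback c t).presheaf.map (eqToHom (image_morphismRestrict_preimage f U ⊤)).op))
      (f.app (U.ι ''ᵁ ⊤)).hom).mp h4
  rwa [U.ι_image_top] at h5

/-- The morphism of sheaves on the base given by a morphism of schemes. -/
noncomputable def structureSheafHom {X T : Scheme.{u}} (f : X ⟶ T) :
    T.sheaf ⟶ (TopCat.Sheaf.pushforward CommRingCat f.base).obj X.sheaf :=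
  ⟨f.c⟩

theorem bijective_app_of_isAffineOpen {X T : Scheme.{u}} (f : X ⟶ T)
    (h : ∀ U : T.Opens, IsAffineOpen U → Function.Bijective (f.app U).hom) (U : T.Opens) :
    Function.Bijective (f.app U).hom := by
  have hb : Opens.IsBasis (Set.range fun V : T.affineOpens => (V : T.Opens)) := by
    convert T.isBasis_affineOpens
    exact Subtype.range_coe
  have hiso : IsIso (structureSheafHom f) :=
    TopCat.Sheaf.isIso_iff_isIso_basis hb
      fun V => (ConcreteCategory.isIso_iff_bijective _).mpr (h V.1 V.2)
  have : IsIso (structureSheafHom f).hom :=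
    inferInstanceAs (IsIso ((TopCat.Sheaf.forget _ _).map (structureSheafHom f)))
  exact ConcreteCategory.bijective_of_isIso ((structureSheafHom f).hom.app (Opposite.op U))

/-- A curve with a two-chart model has only constant functions, over every test scheme. -/
theorem constFunctions_of_charts (G : m.Geo c ε) : ConstFunctions c :=
  fun t U => bijective_app_of_isAffineOpen _
    (fun V hV => bijective_snd_app_of_isAffineOpen G t V hV) U

end Fermat.Agent.Jac
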