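import Fermat.Agent.Jac.Cut.Bundle

/-!
# Rigidified classes of degree zero form a sheaf

`picZeroFun_isSheaf_of_const` is the sheaf property on finite covers by basic opens.
-/

set_option autoImplicit false

universe u

open CategoryTheory CategoryTheory.Limits AlgebraicGeometry AlgebraicGeometry.RelPicard
  NeronModelInfra
open scoped TensorProduct

namespace Fermat.Agent.Jac

variable {k : Type u} [Field k] {m : CurveModel k} {C : Scheme.{u}}
  {c : C ⟶ Spec (CommRingCat.of k)}
  {ε : SchemeHomOver (𝟙 (Spec (CommRingCat.of k))) c} {G : m.Geo c ε}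

/-- A map of algebras induces a map between the localisations. -/
theorem exists_away_algHom {A B : Type u} [CommRing A] [Algebra k A] [CommRing B] [Algebra k B]
    (φ : A →ₐ[k] B) (f : A) :
    ∃ α : Localization.Away f →ₐ[k] Localization.Away (φ f),
      α.comp (IsScalarTower.toAlgHom k A (Localization.Away f)) =
        (IsScalarTower.toAlgHom k B (Localization.Away (φ f))).comp φ := by
  let g : A →ₐ[k] Localization.Away (φ f) :=
    (IsScalarTower.toAlgHom k B (Localization.Away (φ f))).comp φ
  have hu : IsUnit (g.toRingHom f) :=
    IsLocalization.Away.algebraMap_isUnit (S := Localization.Away (φ f)) (φ f)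
  let α : Localization.Away f →+* Localization.Away (φ f) := IsLocalization.Away.lift f hu
  have hα : ∀ a : A, α (algebraMap A (Localization.Away f) a) = g a :=
    IsLocalization.Away.lift_eq f hu
  refine ⟨⟨α, fun r => ?_⟩, AlgHom.ext hα⟩
  change α (algebraMap k (Localization.Away f) r) = algebraMap k _ r
  rw [IsScalarTower.algebraMap_apply k A (Localization.Away f), hα, g.commutes]

/-- If the functions on the curve are constant, rigidified classes of degree zero form a sheaf. -/
theorem picZeroFun_isSheaf_of_const (hc : ConstFunctions c) (d : G.Dictionary) :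
    (picZeroFun m).IsSheaf where
  ext A _ _ s hs x y h := by
    obtain ⟨M, hM⟩ := exists_rigidified_of_rigTriv d x.1 x.2.1
    obtain ⟨M', hM'⟩ := exists_rigidified_of_rigTriv d y.1 y.2.1
    refine Subtype.ext ?_
    rw [← hM, ← hM']
    refine cls_congr d M M' (rigidified_ext_basicOpen hc d s hs M M' fun f hf => ?_)
    rw [hM, hM']
    exact congrArg Subtype.val (h f hf)
  glue A _ _ s hs x h := by
    obtain ⟨y, hyr, hy⟩ := exists_glue_basicOpen hc d s hs (fun f => (x f).1)
      (fun f => (x f).2.1) (fun f g B _ _ φ ψ e => congrArg Subtype.val (h f g B φ ψ e))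
    have hdeg : y.DegZero := by
      intro K _ _ _ φ
      obtain ⟨f, hfs, hf⟩ : ∃ f ∈ s, φ f ≠ 0 := by
        by_contra hno
        push Not at hno
        have hle : Ideal.span (s : Set A) ≤ RingHom.ker φ.toRingHom :=
          Ideal.span_le.mpr fun f hf => hno f hf
        rw [hs] at hle
        exact one_ne_zero ((map_one φ).symm.trans (hle (Submodule.mem_top (x := (1 : A)))))
      let α : Localization.Away f →+* K := IsLocalization.Away.lift (g := φ.toRingHom) f
        (isUnit_iff_ne_zero.mpr hf)
      have hα : ∀ a : A, α (algebraMap A (Localization.Away f) a) = φ a :=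
        IsLocalization.Away.lift_eq f _
      let β : Localization.Away f →ₐ[k] K := ⟨α, fun r => by
        change α (algebraMap k (Localization.Away f) r) = algebraMap k K r
        rw [IsScalarTower.algebraMap_apply k A (Localization.Away f), hα, φ.commutes]⟩
      have hβ : β.comp (IsScalarTower.toAlgHom k A (Localization.Away f)) = φ := AlgHom.ext hα
      rw [← hβ, ← Cl.map_map, hy ⟨f, hfs⟩]
      exact (x ⟨f, hfs⟩).2.2 K β
    exact ⟨⟨y, hyr, hdeg⟩, fun f => Subtype.ext (hy f)⟩

end Fermat.Agent.Jac
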